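/-
S55 / layer G / block REC / adapter TOW — leaf GD1 (subtask 557), helper743.

`gd1_of : Gd1AssemblySpec p` : existence of a fundamental class at `p` on `C_S(F)` for every
Tower level `F ⊇ μ_p` of `S ∋ p`, from reciprocity at finite level and the listed inputs
(memo T6, `coord/S55-REC-TOW.md` §2).  Purely formal; no `sorry`.
-/
import Fermat.Agent.S55.G.Rec.Tow.Spec

set_option autoImplicit false
set_option linter.style.haveILetI false

open CategoryTheory groupCohomology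
open scoped NumberField

noncomputable section

namespace Fermat.Agent.S55.G.Rec.TOW.H743

open Fermat.Agent.S55 Fermat.Agent.S55.Tow Fermat.Agent.S55.E1.H594
open IsDedekindDomain

theorem gd1_of (p : ℕ) : Gd1AssemblySpec p := by
  intro I hKerJ hTot hUp hDesc hSInd hRam hResTop hRCN hCM hIRL hRMN hRI S hp hp2 hpS L hμ
  haveI : Fact p.Prime := ⟨hp⟩
  -- a Sylow subgroup of `Gal(F/ℚ)`
  obtain ⟨P⟩ : Nonempty (Sylow p L.Gal) := inferInstance
  obtain ⟨k, hk⟩ := IsPGroup.exists_card_eq P.isPGroup'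
  -- Step 1: the auxiliary level
  obtain ⟨r, hrS, M, h, hcardZ, hfix⟩ := hRam hp S L k
  have hSS' : S ⊆ insert r S := Finset.subset_insert r S
  have hZp : IsPGroup p (Level.relGal h) := IsPGroup.of_card hcardZ
  have hrS' : r ∈ insert r S := Finset.mem_insert_self r S
  have hpS' : (⟨p, hp⟩ : Nat.Primes) ∈ insert r S := hSS' hpS
  have hμM : M.HasMu p := by
    obtain ⟨ζ, hζ, hprim⟩ := hμ
    exact ⟨ζ, h hζ, hprim⟩
  -- Step 2: the local class
  obtain ⟨y, hy0, hyord⟩ := I.locClass M r hrS' ⊤ (Level.relGal h) le_top hZp hfix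
  obtain ⟨b, hb⟩ := (hResTop M.Gal (lvlJ M) 2).2 y
  have hb' : res2 (lvlJ M) ⊤ b = y := hb
  -- Step 3
  have hres := I.resIndex M (Level.relGal h) b
  have hidx : (Level.relGal h).index = Nat.card L.Gal := by
    show (Level.proj h).ker.index = _
    rw [Subgroup.index_ker, MonoidHom.range_eq_top_of_surjective _ (level_proj_surjective h)]
    rw [Subgroup.card_top]
    rfl
  have hPdvd : p ^ k ∣ Nat.card L.Gal := hk ▸ Subgroup.card_subgroup_dvd_card (P : Subgroup L.Gal)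
  have hσy : p ^ k • (I.σ M ⊤) y = 0 := by
    rw [← map_nsmul, ← hcardZ, hy0, map_zero]
  have hσZ : (I.σ M (Level.relGal h)) ((res2 (lvlJ M) (Level.relGal h)) b) = 0 := by
    rw [hres, hidx, hb']
    obtain ⟨c, hc⟩ := hPdvd
    rw [hc, mul_comm, mul_smul, hσy, smul_zero]
  obtain ⟨hT4, -⟩ := hTot (insert r S) hp hp2 hpS' M hμM r hrS' (Level.relGal h) hZp hfix
  have hresY : res2 (lvlC M) (Level.relGal h) (h2Top (lvlj M) b) = 0 := by
    rw [← hRCN]
    exact hT4 _ hσZ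
  -- Step 4
  obtain ⟨hH1, -⟩ := hUp (insert r S) hp hp2 hpS' M hμM (Level.relGal h) hZp
  obtain ⟨ι, hι⟩ := hDesc (insert r S) ⟨r, hrS'⟩ (Level.ofLE hSS' L) M h
  obtain ⟨γ₀, hγ₀⟩ := hIRL M.Gal (Level.ofLE hSS' L).Gal (Level.proj h) (level_proj_surjective h)
    (lvlC (Level.ofLE hSS' L)) (lvlC M) ι hι hH1 (h2Top (lvlj M) b) hresY
  -- Step 5
  obtain ⟨Φ, π, -, -, -, -, -, -, hbij⟩ := hSInd S (insert r S) hSS' L.Gal L.F ⟨_, hpS⟩
    (level_isUnramOut L)
  -- the class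
  let γ₀' : groupCohomology (G.CRep (insert r S) L.Gal L.F) 2 := γ₀
  refine ⟨h2Top π γ₀', ?_⟩
  -- Step 7 (reduction to the order statement)
  refine hCM p hp L.Gal (lvlC L) (h2Top π γ₀') (P : Subgroup L.Gal) P.isPGroup' P.not_dvd_index
    (fun H hH => hUp S hp hp2 hpS L hμ H hH) ?_
  -- Step 6
  intro n hn
  have h1 : h2Sub π (P : Subgroup L.Gal)
      (n • res2 (G.CRep (insert r S) L.Gal L.F) (P : Subgroup L.Gal) γ₀') = 0 := by
    rw [map_nsmul, hRCN]
    exact hn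
  have h2 : n • res2 (G.CRep (insert r S) L.Gal L.F) (P : Subgroup L.Gal) γ₀' = 0 :=
    (hbij (P : Subgroup L.Gal) 2 (by norm_num)).1 (h1.trans (map_zero _).symm)
  have h3 : res2 (lvlC (Level.ofLE hSS' L)) (P : Subgroup L.Gal) (n • γ₀) = 0 := by
    rw [map_nsmul]
    exact h2
  have h4 := hRMN M.Gal (Level.ofLE hSS' L).Gal (Level.proj h) (lvlC (Level.ofLE hSS' L))
    (lvlC M) ι (P : Subgroup L.Gal) (n • γ₀) h3
  rw [map_nsmul, hγ₀] at h4
  have h5 := hRI ℤ M.Gal (lvlC M) ((P : Subgroup L.Gal).comap (Level.proj h)) 2 (by norm_num)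
    (n • (h2Top (lvlj M)) b) h4
  have e : (Subgroup.comap (Level.proj h) (P : Subgroup L.Gal)).index =
      (P : Subgroup L.Gal).index :=
    Subgroup.index_comap_of_surjective _ (level_proj_surjective h)
  replace h5 : ((P : Subgroup L.Gal).index * n) • (h2Top (lvlj M)) b = 0 := by
    rw [mul_smul]
    exact (congrArg (fun c : ℕ => c • n • (h2Top (lvlj M)) b) e).symm.trans h5
  -- KERJ for `a = c • y`, `c = [G_F : P] * n`
  have hpp : E1.IsPPrimary p (((P : Subgroup L.Gal).index * n) • y) := by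
    refine ⟨k, ?_⟩
    rw [smul_comm, ← hcardZ, hy0, smul_zero]
  have hja : h2Sub (lvlj M) ⊤ (((P : Subgroup L.Gal).index * n) • y) = 0 := by
    rw [← hb', ← map_nsmul, hRCN, map_nsmul, h5, map_zero]
  have hσ := hKerJ (insert r S) ⟨r, hrS'⟩ M ⊤ _ hpp hja
  rw [map_nsmul] at hσ
  have hdvd := hyord _ hσ
  rw [hcardZ] at hdvd
  rw [hk]
  have hcop : Nat.Coprime (p ^ k) (P : Subgroup L.Gal).index :=
    Nat.Coprime.pow_left k ((Nat.Prime.coprime_iff_not_dvd hp).2 P.not_dvd_index)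
  exact hcop.dvd_of_dvd_mul_left hdvd

end Fermat.Agent.S55.G.Rec.TOW.H743
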